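import Mathlib

/-!
# Row S59, cell (C) LO-SQ, leaf W-COUNT / ABS — the abstract count for ALL exponents (helper505)

Mathlib only.  FINITE argument: no divisible groups, no limits.

Setting (application: `G = J₀(Mq)(ℚ̄)`, `m = p`, `T n = G[m ^ n]`, `I n` = inertia-fixed classes of
`T n`, `F n` = classes of slope `0` ("finite part"), `S n` = split (toric) classes,
`red` = reductions on the two components, values in `Q = Pic⁰(C)[m]²`):

* `m ^ (c * n) ≤ |T n|`                                  (torsion count, `c = 2 g(Mq)`);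
* `|T n| ≤ |I n| * |S n|`                                 (MONO + CYC: `τ - 1 : T n → S n`, kernel `I n`);
* `|I n| ≤ s * |F n|`, `s` INDEPENDENT of `n`             (NODE-REL: boundedly many slopes);
* `m • F (n+1) ⊆ F n`, `F (n+1)[m] ⊆ F 1`, same for `S`   (compatibility of the exponents);
* `red : F 1 → Q`, kernel `⊆ S 1`, `|Q| ≤ m ^ a`           (RED at exponent `m` only, `a = 4 g(M)`);
* `|S 1| ≤ m ^ h`                                         (LABEL-INJ at exponent `m` only, `h = #Σ - 1`);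
* `a + 2 h ≤ c`                                           (GUB / genus relation).

Conclusion: `|S 1| = m ^ h` (so every injective label map `S 1 → H`, `|H| ≤ m ^ h`, is BIJECTIVE:
LAB1-SURJ) and `red : F 1 → Q` is ONTO (R-SURJ1).

Key point: `|A (n)| ≤ |A 1| ^ n` (sub-multiplicativity), hence
`m ^ (c n) ≤ s * (|F 1| * |S 1|) ^ n` for all `n`, which forces `|F 1| * |S 1| ≥ m ^ c`.
-/

set_option autoImplicit false
set_option linter.style.haveILetI false

namespace Fermat.Agent.S59.LoSqC.H505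

/-! ## Arithmetic core -/

/-- Bernoulli, in a division-free form: `(n + P) P ^ n ≤ P (P + 1) ^ n`. -/
theorem bernoulli505 (P : ℕ) : ∀ n : ℕ, (n + P) * P ^ n ≤ P * (P + 1) ^ n := by
  intro n
  induction n with
  | zero => simp
  | succ n ih =>
    have h1 : P * (P + 1) ^ (n + 1) = (P + 1) * (P * (P + 1) ^ n) := by ring
    have h2 : (P + 1) * ((n + P) * P ^ n) ≤ (P + 1) * (P * (P + 1) ^ n) :=
      Nat.mul_le_mul_left _ ih
    have h3 : (n + 1 + P) * P ^ (n + 1) ≤ (P + 1) * ((n + P) * P ^ n) := by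
      have e1 : (n + 1 + P) * P ^ (n + 1) = (n + P) * P ^ n * P + P ^ n * P := by ring
      have e2 : (P + 1) * ((n + P) * P ^ n) = (n + P) * P ^ n * P + (n + P) * P ^ n := by ring
      rw [e1, e2]
      have e3 : P ^ n * P ≤ (n + P) * P ^ n := by
        rw [mul_comm (P ^ n) P]
        exact Nat.mul_le_mul_right _ (Nat.le_add_left P n)
      omega
    rw [h1]
    exact h3.trans h2

/-- No geometric growth gap: `B ^ n ≤ s P ^ n` for all `n` forces `B ≤ P`. -/
theorem le_of_forall_pow_le505 {B P s : ℕ} (h : ∀ n : ℕ, B ^ n ≤ s * P ^ n) : B ≤ P := by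
  by_contra hlt
  rw [not_le] at hlt
  rcases Nat.eq_zero_or_pos P with hP | hP
  · have h1 := h 1
    rw [hP] at h1
    simp at h1
    omega
  · have hn := h (P * s + 1)
    have hB : (P + 1) ^ (P * s + 1) ≤ B ^ (P * s + 1) := Nat.pow_le_pow_left hlt _
    have hb := bernoulli505 P (P * s + 1)
    have hpos : 0 < P ^ (P * s + 1) := pow_pos hP _
    have h4 : (P * s + 1 + P) * P ^ (P * s + 1) ≤ P * s * P ^ (P * s + 1) := by
      calc (P * s + 1 + P) * P ^ (P * s + 1) ≤ P * (P + 1) ^ (P * s + 1) := hb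
        _ ≤ P * B ^ (P * s + 1) := Nat.mul_le_mul_left _ hB
        _ ≤ P * (s * P ^ (P * s + 1)) := Nat.mul_le_mul_left _ hn
        _ = P * s * P ^ (P * s + 1) := by ring
    have h5 : P * s + 1 + P ≤ P * s := Nat.le_of_mul_le_mul_right h4 hpos
    omega

/-- **Arithmetic core of the count.** -/
theorem arith_core505 {m s a h c R : ℕ} (hm : 0 < m) (hc : a + 2 * h ≤ c)
    (J I F S : ℕ → ℕ)
    (hJ : ∀ n, m ^ (c * n) ≤ J n) (hJI : ∀ n, J n ≤ I n * S n) (hIF : ∀ n, I n ≤ s * F n)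
    (hFmul : ∀ n, F n ≤ F 1 ^ n) (hSmul : ∀ n, S n ≤ S 1 ^ n)
    (hF1 : F 1 ≤ R * S 1) (hR : R ≤ m ^ a) (hS1 : S 1 ≤ m ^ h) :
    S 1 = m ^ h ∧ R = m ^ a := by
  have key : m ^ (a + 2 * h) ≤ R * S 1 * S 1 := by
    apply le_of_forall_pow_le505 (s := s)
    intro n
    calc (m ^ (a + 2 * h)) ^ n ≤ (m ^ c) ^ n :=
          Nat.pow_le_pow_left (Nat.pow_le_pow_right hm hc) _
      _ = m ^ (c * n) := (pow_mul m c n).symm
      _ ≤ J n := hJ n
      _ ≤ I n * S n := hJI n
      _ ≤ s * F n * S n := Nat.mul_le_mul_right _ (hIF n)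
      _ ≤ s * F 1 ^ n * S 1 ^ n :=
          Nat.mul_le_mul (Nat.mul_le_mul_left _ (hFmul n)) (hSmul n)
      _ ≤ s * (R * S 1) ^ n * S 1 ^ n :=
          Nat.mul_le_mul_right _ (Nat.mul_le_mul_left _ (Nat.pow_le_pow_left hF1 n))
      _ = s * (R * S 1 * S 1) ^ n := by rw [mul_assoc, ← mul_pow]
  have hma : 0 < m ^ a := pow_pos hm a
  have hmh : 0 < m ^ h := pow_pos hm h
  have e : m ^ (a + 2 * h) = m ^ a * m ^ h * m ^ h := by ring
  rw [e] at key
  constructor
  · by_contra hne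
    have hlt : S 1 < m ^ h := lt_of_le_of_ne hS1 hne
    have : R * S 1 * S 1 < m ^ a * m ^ h * m ^ h := by
      calc R * S 1 * S 1 ≤ m ^ a * m ^ h * S 1 :=
            Nat.mul_le_mul_right _ (Nat.mul_le_mul hR hS1)
        _ < m ^ a * m ^ h * m ^ h := Nat.mul_lt_mul_of_pos_left hlt (Nat.mul_pos hma hmh)
    omega
  · by_contra hne
    have hlt : R < m ^ a := lt_of_le_of_ne hR hne
    have : R * S 1 * S 1 < m ^ a * m ^ h * m ^ h := by
      calc R * S 1 * S 1 ≤ R * m ^ h * m ^ h :=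
            Nat.mul_le_mul (Nat.mul_le_mul_left _ hS1) hS1
        _ < m ^ a * m ^ h * m ^ h :=
            Nat.mul_lt_mul_of_pos_right (Nat.mul_lt_mul_of_pos_right hlt hmh) hmh
    omega

/-! ## Groups -/

section Group

variable {G : Type*} [AddCommGroup G]

/-- The `k`-torsion subgroup of an additive commutative group. -/
def tors505 (G : Type*) [AddCommGroup G] (k : ℕ) : AddSubgroup G :=
  (nsmulAddMonoidHom (α := G) k).ker

theorem mem_tors505 {k : ℕ} {x : G} : x ∈ tors505 G k ↔ k • x = 0 := by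
  rw [tors505, AddMonoidHom.mem_ker, nsmulAddMonoidHom_apply]

theorem finite_of_le505 {A B : AddSubgroup G} (h : A ≤ B) [Finite B] : Finite A :=
  Finite.of_injective (AddSubgroup.inclusion h) (AddSubgroup.inclusion_injective h)

theorem card_le_of_le505 {A B : AddSubgroup G} (h : A ≤ B) [Finite B] :
    Nat.card A ≤ Nat.card B :=
  Nat.card_le_card_of_injective (AddSubgroup.inclusion h) (AddSubgroup.inclusion_injective h)

/-- **Counting along a homomorphism**: if `f` maps `X` into `Y` and the kernel of `f` on `X` lies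
in `K`, then `|X| ≤ |K| |Y|`. -/
theorem card_le_mul_of_hom505 {G' : Type*} [AddCommGroup G'] (X K : AddSubgroup G)
    (Y : AddSubgroup G') [Finite K] [Finite Y] (f : G →+ G')
    (hY : ∀ x ∈ X, f x ∈ Y) (hK : ∀ x ∈ X, f x = 0 → x ∈ K) :
    Nat.card X ≤ Nat.card K * Nat.card Y := by
  set g : X →+ G' := f.comp X.subtype with hg
  have h1 : Nat.card g.ker * g.ker.index = Nat.card X := AddSubgroup.card_mul_index _
  have h2 : g.ker.index = Nat.card g.range := AddSubgroup.index_ker g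
  have h3 : Nat.card g.ker ≤ Nat.card K := by
    refine Nat.card_le_card_of_injective
      (fun x : g.ker => (⟨x.1.1, hK _ x.1.2 (AddMonoidHom.mem_ker.mp x.2)⟩ : K)) ?_
    intro x y hxy
    have : x.1.1 = y.1.1 := congrArg (fun z : K => (z : G)) hxy
    exact Subtype.ext (Subtype.ext this)
  have h4 : Nat.card g.range ≤ Nat.card Y := by
    have hle : g.range ≤ Y := by
      rintro _ ⟨x, rfl⟩
      exact hY _ x.2
    exact card_le_of_le505 hle
  calc Nat.card X = Nat.card g.ker * Nat.card g.range := by rw [← h1, h2]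
    _ ≤ Nat.card K * Nat.card Y := Nat.mul_le_mul h3 h4

/-- **Sub-multiplicativity**: a family `A n ⊆ G[m ^ n]` with `m • A (n+1) ⊆ A n` and
`A (n+1)[m] ⊆ A 1` satisfies `|A n| ≤ |A 1| ^ n`. -/
theorem card_le_pow505 {m : ℕ} (hfin : ∀ n, Finite (tors505 G (m ^ n)))
    (A : ℕ → AddSubgroup G) (hA : ∀ n, A n ≤ tors505 G (m ^ n))
    (hAc : ∀ n x, x ∈ A (n + 1) → m • x ∈ A n)
    (hAk : ∀ n x, x ∈ A (n + 1) → m • x = 0 → x ∈ A 1) :
    ∀ n, Nat.card (A n) ≤ Nat.card (A 1) ^ n := by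
  have hAfin : ∀ n, Finite (A n) := fun n => by
    haveI := hfin n
    exact finite_of_le505 (hA n)
  intro n
  induction n with
  | zero =>
    rw [pow_zero]
    have h0 : A 0 ≤ ⊥ := by
      intro x hx
      have := mem_tors505.mp (hA 0 hx)
      rw [pow_zero, one_nsmul] at this
      exact (AddSubgroup.mem_bot).mpr this
    haveI : Subsingleton (A 0) := by
      constructor
      intro x y
      apply Subtype.ext
      rw [(AddSubgroup.mem_bot).mp (h0 x.2), (AddSubgroup.mem_bot).mp (h0 y.2)]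
    exact Finite.card_le_one_iff_subsingleton.mpr inferInstance
  | succ n ih =>
    haveI := hAfin 1
    haveI := hAfin n
    have h := card_le_mul_of_hom505 (A (n + 1)) (A 1) (A n) (nsmulAddMonoidHom (α := G) m)
      (fun x hx => by rw [nsmulAddMonoidHom_apply]; exact hAc n x hx)
      (fun x hx h0 => by rw [nsmulAddMonoidHom_apply] at h0; exact hAk n x hx h0)
    calc Nat.card (A (n + 1)) ≤ Nat.card (A 1) * Nat.card (A n) := h
      _ ≤ Nat.card (A 1) * Nat.card (A 1) ^ n := Nat.mul_le_mul_left _ ih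
      _ = Nat.card (A 1) ^ (n + 1) := by rw [pow_succ, mul_comm]

/-- **W-COUNT / ABS, family form.**  See the header. -/
theorem count_family505 {Q : Type*} [AddCommGroup Q]
    {m s a h c : ℕ} (hm : 0 < m) (hc : a + 2 * h ≤ c)
    (hfin : ∀ n, Finite (tors505 G (m ^ n)))
    (hJ : ∀ n, m ^ (c * n) ≤ Nat.card (tors505 G (m ^ n)))
    (I F S : ℕ → AddSubgroup G)
    (hF : ∀ n, F n ≤ tors505 G (m ^ n)) (hS : ∀ n, S n ≤ tors505 G (m ^ n))
    (hmono : ∀ n, Nat.card (tors505 G (m ^ n)) ≤ Nat.card (I n) * Nat.card (S n))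
    (hslope : ∀ n, Nat.card (I n) ≤ s * Nat.card (F n))
    (hFc : ∀ n x, x ∈ F (n + 1) → m • x ∈ F n)
    (hFk : ∀ n x, x ∈ F (n + 1) → m • x = 0 → x ∈ F 1)
    (hSc : ∀ n x, x ∈ S (n + 1) → m • x ∈ S n)
    (hSk : ∀ n x, x ∈ S (n + 1) → m • x = 0 → x ∈ S 1)
    (red : G →+ Q) (Q₁ : AddSubgroup Q) [Finite Q₁] (hQ : Nat.card Q₁ ≤ m ^ a)
    (hredQ : ∀ x ∈ F 1, red x ∈ Q₁) (hredS : ∀ x ∈ F 1, red x = 0 → x ∈ S 1)
    (hS1 : Nat.card (S 1) ≤ m ^ h) :
    Nat.card (S 1) = m ^ h ∧ ∀ z ∈ Q₁, ∃ x ∈ F 1, red x = z := by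
  haveI hS1fin : Finite (S 1) := by
    haveI := hfin 1
    exact finite_of_le505 (hS 1)
  have hle : (F 1).map red ≤ Q₁ := by
    rintro _ ⟨x, hx, rfl⟩
    exact hredQ x hx
  haveI hRfin : Finite ((F 1).map red) := finite_of_le505 hle
  have hR : Nat.card ((F 1).map red) ≤ m ^ a := (card_le_of_le505 hle).trans hQ
  have hF1 : Nat.card (F 1) ≤ Nat.card ((F 1).map red) * Nat.card (S 1) := by
    have := card_le_mul_of_hom505 (F 1) (S 1) ((F 1).map red) red
      (fun x hx => ⟨x, hx, rfl⟩) hredS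
    rwa [mul_comm] at this
  obtain ⟨h1, h2⟩ := arith_core505 (s := s) hm hc
    (fun n => Nat.card (tors505 G (m ^ n))) (fun n => Nat.card (I n))
    (fun n => Nat.card (F n)) (fun n => Nat.card (S n))
    hJ hmono hslope (card_le_pow505 hfin F hF hFc hFk) (card_le_pow505 hfin S hS hSc hSk)
    hF1 hR hS1
  refine ⟨h1, ?_⟩
  have hcard : Nat.card Q₁ ≤ Nat.card ((F 1).map red) := by rw [h2]; exact hQ
  have heq : (F 1).map red = Q₁ := by
    have hset : ((F 1).map red : Set Q) = (Q₁ : Set Q) := by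
      apply Set.eq_of_subset_of_ncard_le hle _ (Set.toFinite _)
      rw [← Nat.card_coe_set_eq, ← Nat.card_coe_set_eq]
      exact hcard
    exact SetLike.coe_injective hset
  intro z hz
  rw [← heq] at hz
  obtain ⟨x, hx, rfl⟩ := hz
  exact ⟨x, hx, rfl⟩

/-- (MONO + CYC) in homomorphism form gives the cardinality hypothesis `hmono`. -/
theorem mono_card505 {m : ℕ} (hfin : ∀ n, Finite (tors505 G (m ^ n)))
    (I S : ℕ → AddSubgroup G) (hI : ∀ n, I n ≤ tors505 G (m ^ n))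
    (hS : ∀ n, S n ≤ tors505 G (m ^ n))
    (hτ : ∀ n, ∃ τ : G →+ G, (∀ x, (m ^ n) • x = 0 → τ x ∈ S n) ∧
      (∀ x, (m ^ n) • x = 0 → τ x = 0 → x ∈ I n)) :
    ∀ n, Nat.card (tors505 G (m ^ n)) ≤ Nat.card (I n) * Nat.card (S n) := by
  intro n
  haveI := hfin n
  haveI : Finite (I n) := finite_of_le505 (hI n)
  haveI : Finite (S n) := finite_of_le505 (hS n)
  obtain ⟨τ, h1, h2⟩ := hτ n
  exact card_le_mul_of_hom505 (tors505 G (m ^ n)) (I n) (S n) τ
    (fun x hx => h1 x (mem_tors505.mp hx)) (fun x hx => h2 x (mem_tors505.mp hx))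

/-- (NODE-REL) in homomorphism form gives the cardinality hypothesis `hslope`: a slope map on
`I n` with kernel in `F n` and values in a finite group of order `≤ s`. -/
theorem slope_card505 {Z : Type*} [AddCommGroup Z] {m s : ℕ}
    (hfin : ∀ n, Finite (tors505 G (m ^ n)))
    (I F : ℕ → AddSubgroup G) (hF : ∀ n, F n ≤ tors505 G (m ^ n))
    (hσ : ∀ n, ∃ (slope : G →+ Z) (Z₀ : AddSubgroup Z), Finite Z₀ ∧ Nat.card Z₀ ≤ s ∧
      (∀ x ∈ I n, slope x ∈ Z₀) ∧ (∀ x ∈ I n, slope x = 0 → x ∈ F n)) :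
    ∀ n, Nat.card (I n) ≤ s * Nat.card (F n) := by
  intro n
  haveI := hfin n
  haveI : Finite (F n) := finite_of_le505 (hF n)
  obtain ⟨slope, Z₀, hZfin, hZ, h1, h2⟩ := hσ n
  haveI := hZfin
  calc Nat.card (I n) ≤ Nat.card (F n) * Nat.card Z₀ :=
        card_le_mul_of_hom505 (I n) (F n) Z₀ slope h1 h2
    _ ≤ Nat.card (F n) * s := Nat.mul_le_mul_left _ hZ
    _ = s * Nat.card (F n) := mul_comm _ _

/-- (LAB1-SURJ) an injective label map on `S 1` with values in a set of at most `m ^ h` elements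
is bijective as soon as `|S 1| = m ^ h`. -/
theorem label_surjective505 {H : Type*} [Finite H] {m h : ℕ} (S₁ : AddSubgroup G)
    (hcard : Nat.card S₁ = m ^ h) (hH : Nat.card H ≤ m ^ h) (lab : S₁ → H)
    (hinj : Function.Injective lab) : Function.Surjective lab := by
  haveI : Finite S₁ := Finite.of_injective lab hinj
  have h1 : Nat.card H ≤ Nat.card S₁ := by rw [hcard]; exact hH
  exact ((Nat.bijective_iff_injective_and_card lab).mpr
    ⟨hinj, le_antisymm (Nat.card_le_card_of_injective lab hinj) h1⟩).2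

/-- **W-COUNT / ABS, constant form**: `I`, `F`, `S` fixed subgroups of `G`, cut by the torsion
subgroups `G[m ^ n]`; the compatibilities are automatic. -/
theorem count_const505 {Q : Type*} [AddCommGroup Q]
    {m s a h c : ℕ} (hm : 0 < m) (hc : a + 2 * h ≤ c)
    (hfin : ∀ n, Finite (tors505 G (m ^ n)))
    (hJ : ∀ n, m ^ (c * n) ≤ Nat.card (tors505 G (m ^ n)))
    (I F S : AddSubgroup G)
    (hmono : ∀ n, Nat.card (tors505 G (m ^ n)) ≤
      Nat.card ↥(I ⊓ tors505 G (m ^ n)) * Nat.card ↥(S ⊓ tors505 G (m ^ n)))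
    (hslope : ∀ n, Nat.card ↥(I ⊓ tors505 G (m ^ n)) ≤ s * Nat.card ↥(F ⊓ tors505 G (m ^ n)))
    (red : G →+ Q) (Q₁ : AddSubgroup Q) [Finite Q₁] (hQ : Nat.card Q₁ ≤ m ^ a)
    (hredQ : ∀ x ∈ F, m • x = 0 → red x ∈ Q₁) (hredS : ∀ x ∈ F, m • x = 0 → red x = 0 → x ∈ S)
    (hS1 : Nat.card ↥(S ⊓ tors505 G m) ≤ m ^ h) :
    Nat.card ↥(S ⊓ tors505 G m) = m ^ h ∧ ∀ z ∈ Q₁, ∃ x ∈ F, m • x = 0 ∧ red x = z := by
  have hcompat : ∀ (A : AddSubgroup G) (n : ℕ) (x : G), x ∈ A ⊓ tors505 G (m ^ (n + 1)) →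
      m • x ∈ A ⊓ tors505 G (m ^ n) := by
    intro A n x hx
    refine ⟨A.nsmul_mem hx.1 m, mem_tors505.mpr ?_⟩
    have := mem_tors505.mp hx.2
    rw [← mul_nsmul, ← pow_succ']
    exact this
  have hker : ∀ (A : AddSubgroup G) (n : ℕ) (x : G), x ∈ A ⊓ tors505 G (m ^ (n + 1)) →
      m • x = 0 → x ∈ A ⊓ tors505 G (m ^ 1) := by
    intro A n x hx h0
    exact ⟨hx.1, mem_tors505.mpr (by rw [pow_one]; exact h0)⟩
  have key := count_family505 (G := G) (s := s) hm hc hfin hJ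
    (fun n => I ⊓ tors505 G (m ^ n)) (fun n => F ⊓ tors505 G (m ^ n))
    (fun n => S ⊓ tors505 G (m ^ n)) (fun n => inf_le_right) (fun n => inf_le_right)
    hmono hslope (hcompat F) (hker F) (hcompat S) (hker S) red Q₁ hQ
    (fun x hx => hredQ x hx.1 (by have := mem_tors505.mp hx.2; rwa [pow_one] at this))
    (fun x hx h0 => ⟨hredS x hx.1 (by have := mem_tors505.mp hx.2; rwa [pow_one] at this) h0,
      hx.2⟩)
    (by rw [pow_one]; exact hS1)
  rw [pow_one] at key
  refine ⟨key.1, fun z hz => ?_⟩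
  obtain ⟨x, hx, hxz⟩ := key.2 z hz
  exact ⟨x, hx.1, mem_tors505.mp hx.2, hxz⟩

end Group

end Fermat.Agent.S59.LoSqC.H505
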