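import Fermat.Agent.S59.LoSqC.H505.CountAbs

/-!
# Row S59, cell (C) LO-SQ, leaf W-COUNT / ABS, second form (helper505)

Mathlib only (on top of `CountAbs.lean`).  The same finite count as `count_family505`, with the
hypotheses cut down to what the assembly at level `q M'` can really supply:

* the compatibilities `m • A (n+1) ⊆ A n` are NOT needed: a finite group `A` killed by `m ^ n`
  satisfies `|A| ≤ |A[m]| ^ n` (`card_le_pow_tors505`), so only
  `F (n+1)[m] ⊆ F 1` and `S (n+1)[m] ⊆ S 1` remain;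
* the reduction map `red` is only defined on a subgroup `D ⊇ F 1`
  (application: `D = finPartQ m q M' A`, `red` = `H296.exists_redHom_h296`);
* NODE-REL may be given in the form `K • I n ⊆ F n` with `K` independent of `n`
  (`card_le_of_nsmul_mem505`, `slope_card_of_nsmul505`);
* MONO / TAU in the form of ONE additive map (`mono_card_of_hom505`).

Main statement: `count_family_sub505`.
-/

set_option autoImplicit false
set_option linter.style.haveILetI false

namespace Fermat.Agent.S59.LoSqC.H505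

section Group

variable {G : Type*} [AddCommGroup G]

/-- A finite subgroup killed by `m ^ n` has at most `|A[m]| ^ n` elements. -/
theorem card_le_pow_tors505 {m : ℕ} :
    ∀ (n : ℕ) (A : AddSubgroup G) [Finite A], (∀ x ∈ A, (m ^ n) • x = 0) →
      Nat.card A ≤ Nat.card ↥(A ⊓ tors505 G m) ^ n := by
  intro n
  induction n with
  | zero =>
    intro A _ hA
    rw [pow_zero]
    haveI : Subsingleton A := by
      constructor
      intro x y
      apply Subtype.ext
      have hx := hA x x.2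
      have hy := hA y y.2
      rw [pow_zero, one_nsmul] at hx hy
      rw [hx, hy]
    exact Finite.card_le_one_iff_subsingleton.mpr inferInstance
  | succ n ih =>
    intro A _ hA
    set f : G →+ G := nsmulAddMonoidHom (α := G) m with hf
    set B : AddSubgroup G := A.map f with hB
    have hBA : B ≤ A := by
      rintro _ ⟨x, hx, rfl⟩
      rw [hf, nsmulAddMonoidHom_apply]
      exact A.nsmul_mem hx m
    haveI : Finite B := finite_of_le505 hBA
    haveI : Finite ↥(A ⊓ tors505 G m) := finite_of_le505 (inf_le_left : A ⊓ tors505 G m ≤ A)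
    have hBkill : ∀ y ∈ B, (m ^ n) • y = 0 := by
      rintro _ ⟨x, hx, rfl⟩
      rw [hf, nsmulAddMonoidHom_apply, ← mul_nsmul, ← pow_succ']
      exact hA x hx
    have h1 : Nat.card A ≤ Nat.card ↥(A ⊓ tors505 G m) * Nat.card B :=
      card_le_mul_of_hom505 A (A ⊓ tors505 G m) B f
        (fun x hx => ⟨x, hx, rfl⟩)
        (fun x hx h0 => ⟨hx, by
          rw [hf, nsmulAddMonoidHom_apply] at h0
          exact mem_tors505.mpr h0⟩)
    have h2 : Nat.card B ≤ Nat.card ↥(B ⊓ tors505 G m) ^ n := ih B hBkill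
    have h3 : Nat.card ↥(B ⊓ tors505 G m) ≤ Nat.card ↥(A ⊓ tors505 G m) :=
      card_le_of_le505 (inf_le_inf_right _ hBA)
    calc Nat.card A ≤ Nat.card ↥(A ⊓ tors505 G m) * Nat.card B := h1
      _ ≤ Nat.card ↥(A ⊓ tors505 G m) * Nat.card ↥(B ⊓ tors505 G m) ^ n :=
          Nat.mul_le_mul_left _ h2
      _ ≤ Nat.card ↥(A ⊓ tors505 G m) * Nat.card ↥(A ⊓ tors505 G m) ^ n :=
          Nat.mul_le_mul_left _ (Nat.pow_le_pow_left h3 n)
      _ = Nat.card ↥(A ⊓ tors505 G m) ^ (n + 1) := by rw [pow_succ, mul_comm]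

/-- **Sub-multiplicativity without the transition maps**: a family `A n ⊆ G[m ^ n]` with
`A (n+1)[m] ⊆ A 1` satisfies `|A n| ≤ |A 1| ^ n`. -/
theorem card_le_pow_of_ker505 {m : ℕ} (hfin : ∀ n, Finite (tors505 G (m ^ n)))
    (A : ℕ → AddSubgroup G) (hA : ∀ n, A n ≤ tors505 G (m ^ n))
    (hAk : ∀ n x, x ∈ A (n + 1) → m • x = 0 → x ∈ A 1) :
    ∀ n, Nat.card (A n) ≤ Nat.card (A 1) ^ n := by
  have hAfin : ∀ n, Finite (A n) := fun n => by
    haveI := hfin n
    exact finite_of_le505 (hA n)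
  intro n
  haveI := hAfin n
  haveI := hAfin 1
  have h1 := card_le_pow_tors505 (m := m) n (A n) (fun x hx => mem_tors505.mp (hA n hx))
  rcases n with _ | n
  · simpa using h1
  · have h2 : A (n + 1) ⊓ tors505 G m ≤ A 1 := by
      rintro x ⟨hx, hx0⟩
      exact hAk n x hx (mem_tors505.mp hx0)
    exact h1.trans (Nat.pow_le_pow_left (card_le_of_le505 h2) _)

/-- NODE-REL in the form `K • I ⊆ F`: then `|I| ≤ |G[K]| |F|`. -/
theorem card_le_of_nsmul_mem505 (I F : AddSubgroup G) (K : ℕ) [Finite (tors505 G K)]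
    [Finite F] (h : ∀ x ∈ I, K • x ∈ F) :
    Nat.card I ≤ Nat.card (tors505 G K) * Nat.card F :=
  card_le_mul_of_hom505 I (tors505 G K) F (nsmulAddMonoidHom (α := G) K)
    (fun x hx => by rw [nsmulAddMonoidHom_apply]; exact h x hx)
    (fun x _ h0 => by rw [nsmulAddMonoidHom_apply] at h0; exact mem_tors505.mpr h0)

/-- NODE-REL in the form `K • I n ⊆ F n`, `K` independent of `n`, gives the cardinality
hypothesis `hslope` with the constant `s = |G[K]|`. -/
theorem slope_card_of_nsmul505 {m : ℕ} (hfin : ∀ n, Finite (tors505 G (m ^ n)))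
    (I F : ℕ → AddSubgroup G) (hF : ∀ n, F n ≤ tors505 G (m ^ n))
    (K : ℕ) [Finite (tors505 G K)] (h : ∀ n, ∀ x ∈ I n, K • x ∈ F n) :
    ∀ n, Nat.card (I n) ≤ Nat.card (tors505 G K) * Nat.card (F n) := by
  intro n
  haveI := hfin n
  haveI : Finite (F n) := finite_of_le505 (hF n)
  exact card_le_of_nsmul_mem505 (I n) (F n) K (h n)

/-- MONO / TAU with ONE additive map `τ` (application: `τ = σ - 1`, `σ` a generator of tame
inertia): `τ (G[m ^ n]) ⊆ S n`, `ker τ ∩ G[m ^ n] ⊆ I n`. -/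
theorem mono_card_of_hom505 {m : ℕ} (hfin : ∀ n, Finite (tors505 G (m ^ n)))
    (I S : ℕ → AddSubgroup G) (hI : ∀ n, I n ≤ tors505 G (m ^ n))
    (hS : ∀ n, S n ≤ tors505 G (m ^ n)) (τ : G →+ G)
    (h1 : ∀ n x, (m ^ n) • x = 0 → τ x ∈ S n)
    (h2 : ∀ n x, (m ^ n) • x = 0 → τ x = 0 → x ∈ I n) :
    ∀ n, Nat.card (tors505 G (m ^ n)) ≤ Nat.card (I n) * Nat.card (S n) :=
  mono_card505 hfin I S hI hS (fun n => ⟨τ, h1 n, h2 n⟩)

/-- **W-COUNT / ABS, second form.**  See the header. -/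
theorem count_family_sub505 {Q : Type*} [AddCommGroup Q]
    {m s a h c : ℕ} (hm : 0 < m) (hc : a + 2 * h ≤ c)
    (hfin : ∀ n, Finite (tors505 G (m ^ n)))
    (hJ : ∀ n, m ^ (c * n) ≤ Nat.card (tors505 G (m ^ n)))
    (I F S : ℕ → AddSubgroup G)
    (hF : ∀ n, F n ≤ tors505 G (m ^ n)) (hS : ∀ n, S n ≤ tors505 G (m ^ n))
    (hmono : ∀ n, Nat.card (tors505 G (m ^ n)) ≤ Nat.card (I n) * Nat.card (S n))
    (hslope : ∀ n, Nat.card (I n) ≤ s * Nat.card (F n))
    (hFk : ∀ n x, x ∈ F (n + 1) → m • x = 0 → x ∈ F 1)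
    (hSk : ∀ n x, x ∈ S (n + 1) → m • x = 0 → x ∈ S 1)
    (D : AddSubgroup G) (hFD : F 1 ≤ D)
    (red : ↥D →+ Q) (Q₁ : AddSubgroup Q) [Finite Q₁] (hQ : Nat.card Q₁ ≤ m ^ a)
    (hredQ : ∀ x : ↥D, (x : G) ∈ F 1 → red x ∈ Q₁)
    (hredS : ∀ x : ↥D, (x : G) ∈ F 1 → red x = 0 → (x : G) ∈ S 1)
    (hS1 : Nat.card (S 1) ≤ m ^ h) :
    Nat.card (S 1) = m ^ h ∧ ∀ z ∈ Q₁, ∃ x : ↥D, (x : G) ∈ F 1 ∧ red x = z := by
  haveI hS1fin : Finite (S 1) := by
    haveI := hfin 1
    exact finite_of_le505 (hS 1)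
  haveI hF1fin : Finite (F 1) := by
    haveI := hfin 1
    exact finite_of_le505 (hF 1)
  -- the subgroup `F 1` inside `D`
  set F' : AddSubgroup ↥D := (F 1).comap D.subtype with hF'
  set S' : AddSubgroup ↥D := (S 1).comap D.subtype with hS'
  haveI hF'fin : Finite F' :=
    Finite.of_injective (fun x : F' => (⟨x.1.1, x.2⟩ : F 1)) (by
      intro x y hxy
      have : x.1.1 = y.1.1 := congrArg (fun z : F 1 => (z : G)) hxy
      exact Subtype.ext (Subtype.ext this))
  have hcardF : Nat.card (F 1) ≤ Nat.card F' := by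
    refine Nat.card_le_card_of_injective
      (fun x : F 1 => (⟨⟨x.1, hFD x.2⟩, x.2⟩ : F')) ?_
    intro x y hxy
    have : (⟨x.1, hFD x.2⟩ : ↥D) = ⟨y.1, hFD y.2⟩ := congrArg (fun z : F' => (z : ↥D)) hxy
    exact Subtype.ext (congrArg (fun z : ↥D => (z : G)) this)
  haveI hS'fin : Finite S' :=
    Finite.of_injective (fun x : S' => (⟨x.1.1, x.2⟩ : S 1)) (by
      intro x y hxy
      have : x.1.1 = y.1.1 := congrArg (fun z : S 1 => (z : G)) hxy
      exact Subtype.ext (Subtype.ext this))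
  have hcardS : Nat.card S' ≤ Nat.card (S 1) :=
    Nat.card_le_card_of_injective (fun x : S' => (⟨x.1.1, x.2⟩ : S 1)) (by
      intro x y hxy
      have : x.1.1 = y.1.1 := congrArg (fun z : S 1 => (z : G)) hxy
      exact Subtype.ext (Subtype.ext this))
  have hle : F'.map red ≤ Q₁ := by
    rintro _ ⟨x, hx, rfl⟩
    exact hredQ x hx
  haveI hRfin : Finite (F'.map red) := finite_of_le505 hle
  have hR : Nat.card (F'.map red) ≤ m ^ a := (card_le_of_le505 hle).trans hQ
  have hF1 : Nat.card (F 1) ≤ Nat.card (F'.map red) * Nat.card (S 1) := by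
    have h1 := card_le_mul_of_hom505 F' S' (F'.map red) red
      (fun x hx => ⟨x, hx, rfl⟩) (fun x hx h0 => hredS x hx h0)
    calc Nat.card (F 1) ≤ Nat.card F' := hcardF
      _ ≤ Nat.card S' * Nat.card (F'.map red) := h1
      _ ≤ Nat.card (S 1) * Nat.card (F'.map red) := Nat.mul_le_mul_right _ hcardS
      _ = Nat.card (F'.map red) * Nat.card (S 1) := mul_comm _ _
  obtain ⟨h1, h2⟩ := arith_core505 (s := s) hm hc
    (fun n => Nat.card (tors505 G (m ^ n))) (fun n => Nat.card (I n))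
    (fun n => Nat.card (F n)) (fun n => Nat.card (S n))
    hJ hmono hslope (card_le_pow_of_ker505 hfin F hF hFk) (card_le_pow_of_ker505 hfin S hS hSk)
    hF1 hR hS1
  refine ⟨h1, ?_⟩
  have hcard : Nat.card Q₁ ≤ Nat.card (F'.map red) := by rw [h2]; exact hQ
  have heq : F'.map red = Q₁ := by
    have hset : ((F'.map red : AddSubgroup Q) : Set Q) = (Q₁ : Set Q) := by
      apply Set.eq_of_subset_of_ncard_le hle _ (Set.toFinite _)
      rw [← Nat.card_coe_set_eq, ← Nat.card_coe_set_eq]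
      exact hcard
    exact SetLike.coe_injective hset
  intro z hz
  rw [← heq] at hz
  obtain ⟨x, hx, rfl⟩ := hz
  exact ⟨x, hx, rfl⟩

end Group

end Fermat.Agent.S59.LoSqC.H505
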