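import Fermat.Agent.S59.LoSqC.H505.WCount
import Fermat.Agent.S59.LoSqC.H216.Tau

/-!
# Row S59, cell (C) LO-SQ, leaf W-COUNT — the count at level `q M'`, ALL J-FORM (helper505)

The instance of `wCount505` with the WALL-q families (main vocabulary `H158.WallQ`)

    F n = finPartQ (p ^ n) q M' A ∩ G[p ^ n]^{I_A},   S n = splitPartQ (p ^ n) q M' A ∩ G[p ^ n]^{I_A}.

PLUGGED: TAU (helper216 `tau_mem_splitPartQ_h216`), `(τ - 1) x` is inertia-fixed (wall A2 + TAME-CYC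
of helper319), the towers (helper296 `redTower_h296`), FIN, KER.

INPUTS of `jCount505`:

* `hNode` : `K • x ∈ finPartQ (p ^ n) q M' A` for `x ∈ G[p ^ n]` inertia-fixed, `K ≠ 0` fixed
  (NODE-REL, J-form);
* `hLab`  : `#(splitPartQ p ∩ G[p]^{I_A}) ≤ p ^ (s - 1)`, `12 s ≤ (q - 1) ψ(M')`, `1 ≤ s`
  (LAB-INJ through SPLIT-DICT + GUB).

OUTPUT: `#(splitPartQ p ∩ G[p]^{I_A}) = p ^ (s - 1)` and `H296.RSurjJ p q M' A` on
`finPartQ p ∩ G[p]^{I_A}`.
-/

set_option autoImplicit false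
set_option linter.unusedSectionVars false
set_option linter.unusedVariables false
set_option linter.style.haveILetI false
set_option synthInstance.maxHeartbeats 400000
set_option maxHeartbeats 1000000

noncomputable section

namespace Fermat.Agent.S59.LoSqC.H505

open AlgebraicCurve ModularCurve
open Fermat.Agent.S24 Fermat.Agent.Ribet.H884 Fermat.Agent.Ribet.H158.WallQ
open Fermat.Agent.S59.LoSqC.H296 Fermat.Agent.S59.LoSqC.H140

/-- `G_ℚ` -/
local notation "GQ505" => (AlgebraicClosure ℚ ≃ₐ[ℚ] AlgebraicClosure ℚ)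

section General

variable {N : ℕ}

/-- The classes of `G[k]` fixed by the inertia group of `A`. -/
def inertiaTors505 (N : ℕ) (A : ValuationSubring (AlgebraicClosure ℚ)) (k : ℕ) :
    AddSubgroup (JZero N) where
  carrier := {x | k • x = 0 ∧ ∀ τ ∈ A.inertiaSubgroupIn ℚ, τ • x = x}
  zero_mem' := ⟨nsmul_zero k, fun τ _ => smul_zero τ⟩
  add_mem' := by
    rintro x y ⟨hx, hx'⟩ ⟨hy, hy'⟩
    exact ⟨by rw [nsmul_add, hx, hy, add_zero], fun τ hτ => by rw [smul_add, hx' τ hτ, hy' τ hτ]⟩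
  neg_mem' := by
    rintro x ⟨hx, hx'⟩
    exact ⟨by rw [neg_nsmul, hx, neg_zero], fun τ hτ => by rw [smul_neg, hx' τ hτ]⟩

theorem mem_inertiaTors505 {A : ValuationSubring (AlgebraicClosure ℚ)} {k : ℕ} {x : JZero N} :
    x ∈ inertiaTors505 N A k ↔ k • x = 0 ∧ ∀ τ ∈ A.inertiaSubgroupIn ℚ, τ • x = x := Iff.rfl

end General

section Level

variable {p q M' : ℕ} [NeZero M'] [NeZero q] [NeZero (q * M')]
  {A : ValuationSubring (AlgebraicClosure ℚ)}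

/-- `(τ - 1) x` is fixed by inertia, for `x ∈ J₀(q M')[p ^ n]` and `τ` in the inertia group
(wall A2 + TAME-CYC). -/
theorem tau_sub_fixed505 (hp : p.Prime) (hq : q.Prime) (hpq : p ≠ q) (hqM : ¬ q ∣ M')
    (hA : A.LiesOverPrime q) (n : ℕ) (x : JZero (q * M')) (hx : (p ^ n) • x = 0)
    {τ : GQ505} (hτ : τ ∈ A.inertiaSubgroupIn ℚ) :
    ∀ τ' ∈ A.inertiaSubgroupIn ℚ, τ' • (τ • x - x) = τ • x - x := by
  obtain ⟨φ, σ, hσ⟩ := Fermat.Agent.S59.LoSqC.H319.exists_tamePair hq hp hpq A hA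
  have hqN : q ∣ q * M' := Dvd.intro M' rfl
  have hq2 := not_sq_dvd505 hq hqM
  have hqpn : ¬ q ∣ p ^ n := fun hd =>
    hpq ((Nat.prime_dvd_prime_iff_eq hq hp).mp (hq.dvd_of_dvd_pow hd)).symm
  have hT := Fermat.Agent.A2.Top.H672.target (q * M') q (p ^ n) hq hqN hq2
    (NeZero.ne (q * M')) (pow_pos hp.pos n) hqpn
  obtain ⟨j, hj⟩ := Fermat.Agent.S59.LoSqC.H319.sub_mem_zmultiples hq hqN hq2 hp hpq n A hA hσ
    hτ x hx
  have hσfix : σ • (σ • x - x) = σ • x - x := by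
    have h := hT A hA σ hσ.mem x hx
    rw [smul_sub]
    have e : σ • (σ • x) = 2 • (σ • x) - x := eq_sub_of_add_eq h
    rw [e, two_nsmul]
    abel
  have hkill : (p ^ n) • (σ • x - x) = 0 := by
    rw [nsmul_sub, hx, sub_zero, ← Fermat.Agent.S35.H504.galois_smul_nsmul, hx,
      Fermat.Agent.S35.H504.galois_smul_zero]
  have hfix := Fermat.Agent.S59.LoSqC.H319.fixed_of_sigma_fixed hq hqN hq2 hp hpq n A hA hσ
    (σ • x - x) hkill hσfix
  intro τ' hτ'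
  rw [hj, Fermat.Agent.S35.H504.galois_smul_nsmul, hfix τ' hτ']

theorem finPartQ_pow_one505 : finPartQ (p ^ 1) q M' A = finPartQ p q M' A := by
  rw [pow_one]

theorem splitPartQ_pow_one505 : splitPartQ (p ^ 1) q M' A = splitPartQ p q M' A := by
  rw [pow_one]

/-- **W-COUNT, all J-form.**  See the header. -/
theorem jCount505 (hp : p.Prime) (hq : q.Prime) (hpq : p ≠ q) (hqM : ¬ q ∣ M')
    (hneat : Fermat.Agent.S36.Eng.NeatFor M' q) (hA : A.LiesOverPrime q)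
    (K : ℕ) (hK : K ≠ 0)
    (hNode : ∀ (n : ℕ) (x : JZero (q * M')), (p ^ n) • x = 0 →
      (∀ τ ∈ A.inertiaSubgroupIn ℚ, τ • x = x) → K • x ∈ finPartQ (p ^ n) q M' A)
    (s : ℕ) (hs1 : 1 ≤ s) (hs : 12 * s ≤ (q - 1) * dedekindPsi M')
    (hLab : Nat.card ↥(splitPartQ (p ^ 1) q M' A ⊓ inertiaTors505 (q * M') A (p ^ 1)) ≤
      p ^ (s - 1)) :
    Nat.card ↥(splitPartQ (p ^ 1) q M' A ⊓ inertiaTors505 (q * M') A (p ^ 1)) = p ^ (s - 1) ∧
      RSurjJ p q M' A (finPartQ (p ^ 1) q M' A ⊓ inertiaTors505 (q * M') A (p ^ 1)) := by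
  obtain ⟨-, -, hFc, hFk, hSc, hSk⟩ := redTower_h296 p q M' A hp.ne_zero hq hqM hA
  have hfixK : ∀ (k K' : ℕ) (x : JZero (q * M')),
      (∀ τ ∈ A.inertiaSubgroupIn ℚ, τ • x = x) →
      ∀ τ ∈ A.inertiaSubgroupIn ℚ, τ • (K' • x) = K' • x := fun k K' x h τ hτ => by
    rw [Fermat.Agent.S35.H504.galois_smul_nsmul, h τ hτ]
  refine wCount505 hp hq hpq hqM hneat hA
    (fun n => finPartQ (p ^ n) q M' A ⊓ inertiaTors505 (q * M') A (p ^ n))
    (fun n => splitPartQ (p ^ n) q M' A ⊓ inertiaTors505 (q * M') A (p ^ n))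
    ?_ ?_ ?_ K hK ?_ ?_ ?_ ?_ ?_ s hs1 hs hLab
  · rintro n x ⟨-, hx, -⟩
    exact hx
  · rintro n x ⟨-, hx, -⟩
    exact hx
  · -- TAU
    intro n x hx τ hτ
    refine AddSubgroup.mem_inf.mpr
      ⟨Fermat.Agent.S59.LoSqC.H216.tau_mem_splitPartQ_h216 (p ^ n) q M' hq.ne_zero hA x hx hτ,
        ?_, tau_sub_fixed505 hp hq hpq hqM hA n x hx hτ⟩
    rw [nsmul_sub, hx, sub_zero, ← Fermat.Agent.S35.H504.galois_smul_nsmul, hx,
      Fermat.Agent.S35.H504.galois_smul_zero]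
  · -- NODE-REL
    intro n x hx hfix
    refine AddSubgroup.mem_inf.mpr ⟨hNode n x hx hfix, ?_, hfixK n K x hfix⟩
    rw [← mul_nsmul, mul_nsmul', hx, nsmul_zero]
  · -- `F (n+1)[p] ⊆ F 1`
    rintro n x ⟨hxF, -, hxfix⟩ h0
    refine AddSubgroup.mem_inf.mpr ⟨hFk n x hxF h0, ?_, hxfix⟩
    rw [pow_one]
    exact h0
  · -- `S (n+1)[p] ⊆ S 1`
    rintro n x ⟨hxS, -, hxfix⟩ h0
    refine AddSubgroup.mem_inf.mpr ⟨hSk n x hxS h0, ?_, hxfix⟩
    rw [pow_one]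
    exact h0
  · -- FIN
    rintro x ⟨hxF, -⟩
    rwa [finPartQ_pow_one505] at hxF
  · -- KER
    rintro x ⟨-, hx⟩ hsp
    refine AddSubgroup.mem_inf.mpr ⟨?_, hx⟩
    rw [splitPartQ_pow_one505]
    exact hsp

end Level

end Fermat.Agent.S59.LoSqC.H505

end
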