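import Fermat.Agent.S59.LoSqC.H505.CountSub
import Fermat.Agent.S59.LoSqC.H296.RedSurj
import Fermat.Agent.S59.LoSqC.H140.CountNum
import Fermat.Agent.S59.LoSqC.H319.TameCyc

/-!
# Row S59, cell (C) LO-SQ, leaf W-COUNT — THE ASSEMBLY of the count at level `q M'` (helper505)

Level `N = q * M'` (WALL-q convention), `q ∤ M'`, `M'` neat for `q` (`S36.Eng.NeatFor M' q`),
`A` a valuation subring of `ℚ̄` over `q`, `p ≠ q` a prime, `G = J₀(q M')(ℚ̄)`.

PLUGGED here (nothing left to supply):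

* the torsion numbers `#G[p^n] = p^(2 g n)`, `#(Pic⁰(F_k)[p])² = p^(4 g₀)` and the genus relation
  `4 g₀ + 2 (s - 1) ≤ 2 g` for `12 s ≤ (q - 1) ψ(M')`        (helper140, `countNum_neat140`);
* TAME-CYC: the inertia invariants of `G[p^n]` are the invariants of ONE tame generator `σ`
  (helper319, `fixed_of_sigma_fixed`, `exists_tamePair`; wall A2 on main);
* the reduction homomorphism `red : finPartQ p q M' A → Pic⁰(F_k)²` with kernel `splitPartQ`
  (helper296, `exists_redHom_h296`);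
* the finite count (`count_family_sub505`).

INPUTS (hypotheses of `wCount505`; `F n`, `S n` are ANY families of subgroups of `G[p^n]`, to be
instantiated by the E-form families: `F n` = inertia-fixed classes with an `E`-rational Kummer
generator of slope `≡ 0 mod p^n`, `S n` = `H296.kummerClasses296 E N (p^n) (splitDiv (p^n))`):

* `hTau`  : `τ x - x ∈ S n` for `x ∈ G[p^n]`, `τ ∈ I_A`                     (TAU, E-form);
* `hNode` : `K • x ∈ F n` for `x ∈ G[p^n]` inertia-fixed, `K ≠ 0` FIXED       (NODE-REL);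
* `hFk`, `hSk` : `F (n+1)[p] ⊆ F 1`, `S (n+1)[p] ⊆ S 1`                     (COMPAT-E);
* `hFfin` : `F 1 ⊆ finPartQ p q M' A`                                        (FIN-OF-SLOPE);
* `hKer`  : `F 1 ∩ splitPartQ p q M' A ⊆ S 1`                                (KER-RED-E);
* `hLab`  : `#S 1 ≤ p^(s-1)`, `12 s ≤ (q - 1) ψ(M')`, `1 ≤ s`                (LAB-INJ + GUB).

OUTPUT: `#S 1 = p^(s-1)` (so the label map is ONTO: LAB1-SURJ) and
`H296.RSurjJ p q M' A (F 1)` (R-SURJ1, J-form: every pair of `p`-torsion classes of the special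
fibre is the pair of reduction classes of some `x ∈ F 1`).

`jCount505` is the instance `F n = finPartQ (p^n) ∩ (inertia-fixed)`,
`S n = splitPartQ (p^n) ∩ (inertia-fixed)` (all J-form; TAU, COMPAT, FIN, KER plugged from
helper216 / helper296 / the wall A2).
-/

set_option autoImplicit false
set_option linter.unusedSectionVars false
set_option linter.unusedVariables false
set_option linter.style.haveILetI false
set_option synthInstance.maxHeartbeats 400000
set_option maxHeartbeats 1000000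

noncomputable section

namespace Fermat.Agent.S59.LoSqC.H505

open AlgebraicCurve ModularCurve
open Fermat.Agent.S24 Fermat.Agent.Ribet.H884 Fermat.Agent.Ribet.H158.WallQ
open Fermat.Agent.S59.LoSqC.H296 Fermat.Agent.S59.LoSqC.H140

/-- `G_ℚ` -/
local notation "GQ505" => (AlgebraicClosure ℚ ≃ₐ[ℚ] AlgebraicClosure ℚ)

section General

variable {N : ℕ}

/-- The torsion subgroup of the count is the Prelude torsion subgroup. -/
theorem tors505_eq_torsion (N k : ℕ) :
    tors505 (JZero N) k = Pic0.torsion (AlgebraicClosure ℚ) (modularFunctionFieldBar N) k := by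
  ext x
  rw [mem_tors505, Pic0.mem_torsion, natCast_zsmul]

theorem finite_tors_jZero505 (N : ℕ) [NeZero N] {k : ℕ} (hk : k ≠ 0) :
    Finite (tors505 (JZero N) k) := by
  rw [tors505_eq_torsion]
  apply Nat.finite_of_card_ne_zero
  rw [Fermat.Agent.Ribet.H937.natCard_torsion_jZero N k hk]
  exact pow_ne_zero _ hk

/-- The classes of `G[k]` fixed by `σ`. -/
def fixTors505 (N : ℕ) (σ : GQ505) (k : ℕ) : AddSubgroup (JZero N) where
  carrier := {x | k • x = 0 ∧ σ • x = x}
  zero_mem' := ⟨nsmul_zero k, smul_zero σ⟩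
  add_mem' := by
    rintro x y ⟨hx, hx'⟩ ⟨hy, hy'⟩
    exact ⟨by rw [nsmul_add, hx, hy, add_zero], by rw [smul_add, hx', hy']⟩
  neg_mem' := by
    rintro x ⟨hx, hx'⟩
    exact ⟨by rw [neg_nsmul, hx, neg_zero], by rw [smul_neg, hx']⟩

theorem mem_fixTors505 {σ : GQ505} {k : ℕ} {x : JZero N} :
    x ∈ fixTors505 N σ k ↔ k • x = 0 ∧ σ • x = x := Iff.rfl

/-- `σ - 1` as an additive endomorphism of `J₀(N)`. -/
def galSubOne505 (N : ℕ) (σ : GQ505) : JZero N →+ JZero N :=
  DistribSMul.toAddMonoidHom (JZero N) σ - AddMonoidHom.id (JZero N)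

theorem galSubOne505_apply (σ : GQ505) (x : JZero N) : galSubOne505 N σ x = σ • x - x := rfl

end General

section Level

variable {p q M' : ℕ} [NeZero M'] [NeZero q] [NeZero (q * M')]
  {A : ValuationSubring (AlgebraicClosure ℚ)}

theorem not_sq_dvd505 (hq : q.Prime) (hqM : ¬ q ∣ M') : ¬ q ^ 2 ∣ q * M' := by
  intro h
  apply hqM
  rw [pow_two] at h
  exact (Nat.mul_dvd_mul_iff_left hq.pos).mp h

/-- **W-COUNT, the assembly.**  See the header. -/
theorem wCount505 (hp : p.Prime) (hq : q.Prime) (hpq : p ≠ q) (hqM : ¬ q ∣ M')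
    (hneat : Fermat.Agent.S36.Eng.NeatFor M' q) (hA : A.LiesOverPrime q)
    (F S : ℕ → AddSubgroup (JZero (q * M')))
    (hF : ∀ n, ∀ x ∈ F n, (p ^ n) • x = 0) (hS : ∀ n, ∀ x ∈ S n, (p ^ n) • x = 0)
    (hTau : ∀ (n : ℕ) (x : JZero (q * M')), (p ^ n) • x = 0 →
      ∀ τ ∈ A.inertiaSubgroupIn ℚ, τ • x - x ∈ S n)
    (K : ℕ) (hK : K ≠ 0)
    (hNode : ∀ (n : ℕ) (x : JZero (q * M')), (p ^ n) • x = 0 →
      (∀ τ ∈ A.inertiaSubgroupIn ℚ, τ • x = x) → K • x ∈ F n)
    (hFk : ∀ n x, x ∈ F (n + 1) → p • x = 0 → x ∈ F 1)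
    (hSk : ∀ n x, x ∈ S (n + 1) → p • x = 0 → x ∈ S 1)
    (hFfin : F 1 ≤ finPartQ p q M' A)
    (hKer : ∀ x ∈ F 1, x ∈ splitPartQ p q M' A → x ∈ S 1)
    (s : ℕ) (hs1 : 1 ≤ s) (hs : 12 * s ≤ (q - 1) * dedekindPsi M')
    (hLab : Nat.card (S 1) ≤ p ^ (s - 1)) :
    Nat.card (S 1) = p ^ (s - 1) ∧ RSurjJ p q M' A (F 1) := by
  have hqp : ¬ q ∣ p := fun hd => hpq ((Nat.prime_dvd_prime_iff_eq hq hp).mp hd).symm
  obtain ⟨hcJ, -, hcQ, -, -, hgen⟩ :=
    countNum_neat140 M' q hq hqM hneat A hA p hp.ne_zero hqp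
  obtain ⟨φ, σ, hσ⟩ := Fermat.Agent.S59.LoSqC.H319.exists_tamePair hq hp hpq A hA
  obtain ⟨red, hredC, hredT, hredK⟩ := exists_redHom_h296 p q M' A hp.ne_zero hq hqM hA
  have hfin : ∀ n, Finite (tors505 (JZero (q * M')) (p ^ n)) := fun n =>
    finite_tors_jZero505 (q * M') (pow_ne_zero n hp.ne_zero)
  haveI : Finite (tors505 (JZero (q * M')) K) := finite_tors_jZero505 (q * M') hK
  have hFle : ∀ n, F n ≤ tors505 (JZero (q * M')) (p ^ n) := fun n x hx =>
    mem_tors505.mpr (hF n x hx)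
  have hSle : ∀ n, S n ≤ tors505 (JZero (q * M')) (p ^ n) := fun n x hx =>
    mem_tors505.mpr (hS n x hx)
  have hIle : ∀ n, fixTors505 (q * M') σ (p ^ n) ≤ tors505 (JZero (q * M')) (p ^ n) :=
    fun n x hx => mem_tors505.mpr hx.1
  -- the numbers
  have hJ : ∀ n, p ^ (2 * gBar140 (q * M') * n) ≤
      Nat.card (tors505 (JZero (q * M')) (p ^ n)) := fun n => by
    rw [tors505_eq_torsion, hcJ n]
  set Q₁ : AddSubgroup (JZeroC (kA A) M' × JZeroC (kA A) M') :=
    (Pic0.torsion (kA A) (modularFunctionFieldFullC (kA A) M') (p ^ 1)).prod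
      (Pic0.torsion (kA A) (modularFunctionFieldFullC (kA A) M') (p ^ 1)) with hQ₁
  have hQcard : Nat.card Q₁ = p ^ (4 * gRes140 A M') := by
    have := hcQ 1
    rw [mul_one] at this
    exact this
  haveI : Finite Q₁ := by
    apply Nat.finite_of_card_ne_zero
    rw [hQcard]
    exact pow_ne_zero _ hp.ne_zero
  have hmemQ : ∀ y : JZeroC (kA A) M' × JZeroC (kA A) M', p • y = 0 → y ∈ Q₁ := by
    intro y hy
    rw [hQ₁, mem_torsion_pair_iff140, pow_one]
    exact ⟨congrArg Prod.fst hy, congrArg Prod.snd hy⟩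
  -- MONO / TAU
  have hmono := mono_card_of_hom505 hfin (fun n => fixTors505 (q * M') σ (p ^ n)) S hIle hSle
    (galSubOne505 (q * M') σ)
    (fun n x hx => by
      rw [galSubOne505_apply]
      exact hTau n x hx σ hσ.mem)
    (fun n x hx h0 => by
      rw [galSubOne505_apply] at h0
      exact ⟨hx, sub_eq_zero.mp h0⟩)
  -- NODE-REL
  have hslope := slope_card_of_nsmul505 hfin (fun n => fixTors505 (q * M') σ (p ^ n)) F hFle K
    (fun n x hx => hNode n x hx.1
      (Fermat.Agent.S59.LoSqC.H319.fixed_of_sigma_fixed hq (Dvd.intro M' rfl)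
        (not_sq_dvd505 hq hqM) hp hpq n A hA hσ x hx.1 hx.2))
  -- the count
  obtain ⟨h1, h2⟩ := count_family_sub505 (G := JZero (q * M')) (m := p)
    (s := Nat.card (tors505 (JZero (q * M')) K)) (a := 4 * gRes140 A M') (h := s - 1)
    (c := 2 * gBar140 (q * M')) hp.pos (hgen s hs1 hs) hfin hJ
    (fun n => fixTors505 (q * M') σ (p ^ n)) F S hFle hSle hmono hslope hFk hSk
    (finPartQ p q M' A) hFfin red Q₁ (le_of_eq hQcard)
    (fun x _ => hmemQ _ (hredT x))
    (fun x hx h0 => hKer _ hx ((hredK x).mp h0)) hLab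
  refine ⟨h1, fun y hy => ?_⟩
  obtain ⟨x, hx, rfl⟩ := h2 y (hmemQ y hy)
  exact ⟨x, hx, hredC x⟩

end Level

end Fermat.Agent.S59.LoSqC.H505

end
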